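import Mathlib
import Fermat.Agent.Lib.KFin.Inertia
import Fermat.Agent.Lib.Frobenius.Exists

section MergeWrap_Lib_TameInertia_Finite -- from Lib/TameInertia/Finite.lean

set_option autoImplicit false

namespace Fermat.Agent.TameInertia

section Shift

variable {R : Type*} [CommRing R] {G : Type*} [Group G] [MulSemiringAction G R]

/-- `σ - 1` maps `P ^ i` into `P ^ (i + c)` for all `i`. -/
def ShiftsBy (P : Ideal R) (σ : G) (c : ℕ) : Prop :=
  ∀ (i : ℕ) (x : R), x ∈ P ^ i → σ • x - x ∈ P ^ (i + c)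

theorem ShiftsBy.smul_mem {P : Ideal R} {σ : G} {c : ℕ} (h : ShiftsBy P σ c) {i : ℕ} {x : R}
    (hx : x ∈ P ^ i) : σ • x ∈ P ^ i := by
  have h1 := h i x hx
  have h2 : σ • x = (σ • x - x) + x := by ring
  rw [h2]
  exact (P ^ i).add_mem (Ideal.pow_le_pow_right (Nat.le_add_right i c) h1) hx

/-- An element acting trivially on `R ⧸ P` and on `P ⧸ P ^ 2` acts trivially on all
`P ^ i ⧸ P ^ (i + 1)`. -/
theorem shiftsBy_one (P : Ideal R) (σ : G) (h0 : ∀ x : R, σ • x - x ∈ P)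
    (h1 : ∀ x ∈ P, σ • x - x ∈ P ^ 2) : ShiftsBy P σ 1 := by
  intro i
  induction i with
  | zero =>
    intro x _
    rw [zero_add, pow_one]
    exact h0 x
  | succ i ih =>
    intro x hx
    rw [pow_succ] at hx
    refine Submodule.mul_induction_on hx ?_ ?_
    · intro a ha b hb
      have e : σ • (a * b) - a * b = (σ • a - a) * (σ • b) + a * (σ • b - b) := by
        rw [smul_mul']; ring
      rw [e]
      have hσb : σ • b ∈ P := by
        have := h0 b
        have h2 : σ • b = (σ • b - b) + b := by ring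
        rw [h2]
        exact P.add_mem this hb
      refine (P ^ (i + 1 + 1)).add_mem ?_ ?_
      · rw [pow_succ (n := i + 1)]
        exact Ideal.mul_mem_mul (ih a ha) hσb
      · have : P ^ (i + 1 + 1) = P ^ i * P ^ 2 := by rw [← pow_add]
        rw [this]
        exact Ideal.mul_mem_mul ha (h1 b hb)
    · intro y z hy hz
      have e : σ • (y + z) - (y + z) = (σ • y - y) + (σ • z - z) := by
        rw [smul_add]; ring
      rw [e]
      exact (P ^ (i + 1 + 1)).add_mem hy hz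

theorem ShiftsBy.pow {P : Ideal R} {σ : G} {c : ℕ} (h : ShiftsBy P σ c) (l : ℕ) :
    ShiftsBy P (σ ^ l) c := by
  induction l with
  | zero =>
    intro i x _
    rw [pow_zero, one_smul, sub_self]
    exact Submodule.zero_mem _
  | succ l ih =>
    intro i x hx
    have e : σ ^ (l + 1) • x - x = (σ ^ l • (σ • x) - σ • x) + (σ • x - x) := by
      rw [pow_succ, mul_smul]; ring
    rw [e]
    exact (P ^ (i + c)).add_mem (ih i _ (h.smul_mem hx)) (h i x hx)

theorem smul_pow_sub_eq_sum (σ : G) (x : R) (n : ℕ) :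
    σ ^ n • x - x = ∑ l ∈ Finset.range n, σ ^ l • (σ • x - x) := by
  induction n with
  | zero => simp
  | succ n ih =>
    rw [Finset.sum_range_succ, ← ih, smul_sub, ← mul_smul, ← pow_succ]
    ring

/-- If `σ` shifts by `c ≥ 1` and `q ∈ P`, then `σ ^ q` shifts by `c + 1`. -/
theorem ShiftsBy.pow_prime {P : Ideal R} {σ : G} {c : ℕ} (h : ShiftsBy P σ c) (hc : 1 ≤ c)
    (q : ℕ) (hqP : (q : R) ∈ P) : ShiftsBy P (σ ^ q) (c + 1) := by
  intro i x hx
  rw [smul_pow_sub_eq_sum]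
  set y := σ • x - x with hy
  have hyP : y ∈ P ^ (i + c) := h i x hx
  have e : ∑ l ∈ Finset.range q, σ ^ l • y =
      (q : R) * y + ∑ l ∈ Finset.range q, (σ ^ l • y - y) := by
    rw [Finset.sum_sub_distrib, Finset.sum_const, Finset.card_range, nsmul_eq_mul]
    ring
  rw [e]
  refine (P ^ (i + (c + 1))).add_mem ?_ ?_
  · have : P ^ (i + (c + 1)) = P * P ^ (i + c) := by
      rw [← pow_succ']
      congr 1
    rw [this]
    exact Ideal.mul_mem_mul hqP hyP
  · refine (P ^ (i + (c + 1))).sum_mem fun l _ => ?_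
    have := (h.pow l) (i + c) y hyP
    exact Ideal.pow_le_pow_right (by omega) this

theorem ShiftsBy.pow_prime_pow {P : Ideal R} {σ : G} (h : ShiftsBy P σ 1)
    (q : ℕ) (hqP : (q : R) ∈ P) (k : ℕ) : ShiftsBy P (σ ^ q ^ k) (k + 1) := by
  induction k with
  | zero => simpa using h
  | succ k ih =>
    rw [pow_succ, pow_mul]
    exact ih.pow_prime (by omega) q hqP

/-- **The wild part is a `q`-group**: an element of order prime to `q` acting trivially on
`R ⧸ P` and on `P ⧸ P ^ 2` acts trivially on `R`. -/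
theorem smul_eq_of_shiftsBy_one [IsDomain R] [IsNoetherianRing R] {P : Ideal R} (hP : P ≠ ⊤)
    {σ : G} (h : ShiftsBy P σ 1) (q : ℕ) (hqP : (q : R) ∈ P)
    (hcop : (orderOf σ).Coprime q) (hfin : 0 < orderOf σ) (x : R) : σ • x = x := by
  have hmem : ∀ j : ℕ, σ • x - x ∈ P ^ j := by
    intro j
    have hmod : q ^ (Nat.totient (orderOf σ) * j) ≡ 1 [MOD orderOf σ] := by
      rw [pow_mul]
      have := (Nat.ModEq.pow_totient hcop.symm).pow j
      rwa [one_pow] at this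
    have hσ : σ ^ q ^ (Nat.totient (orderOf σ) * j) = σ := by
      conv_rhs => rw [← pow_one σ]
      exact pow_eq_pow_iff_modEq.mpr hmod
    have h1 := (h.pow_prime_pow q hqP (Nat.totient (orderOf σ) * j)) 0 x
      (by rw [pow_zero, Ideal.one_eq_top]; exact Submodule.mem_top)
    rw [hσ, zero_add] at h1
    refine Ideal.pow_le_pow_right ?_ h1
    have : 1 ≤ Nat.totient (orderOf σ) := Nat.totient_pos.mpr hfin
    nlinarith
  have hbot : (⨅ j : ℕ, P ^ j) = ⊥ := Ideal.iInf_pow_eq_bot_of_isDomain P hP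
  have : σ • x - x ∈ (⨅ j : ℕ, P ^ j) := by
    rw [Ideal.mem_iInf]; exact hmem
  rw [hbot, Ideal.mem_bot, sub_eq_zero] at this
  exact this

end Shift

section Uniformizer

variable {R : Type*} [CommRing R]

/-- If `a * π ∈ P ^ 2` with `π ∉ P ^ 2` and `P` maximal, then `a ∈ P`. -/
theorem mem_of_mul_mem_sq {P : Ideal R} (hP : P.IsMaximal) {π : R} (hπ : π ∈ P)
    (hπ2 : π ∉ P ^ 2) {a : R} (h : a * π ∈ P ^ 2) : a ∈ P := by
  by_contra ha
  obtain ⟨r, p₀, hp₀, hr⟩ := hP.exists_inv ha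
  apply hπ2
  have e : π = r * (a * π) + p₀ * π := by
    calc π = (r * a + p₀) * π := by rw [hr, one_mul]
      _ = r * (a * π) + p₀ * π := by ring
  rw [e]
  refine (P ^ 2).add_mem ((P ^ 2).mul_mem_left r h) ?_
  rw [pow_two]
  exact Ideal.mul_mem_mul hp₀ hπ

/-- In a Dedekind domain, `P = (π) + P ^ 2` for `π ∈ P \ P ^ 2`. -/
theorem exists_sub_mul_mem_sq [IsDedekindDomain R] {P : Ideal R} (hP : P.IsMaximal)
    (hP0 : P ≠ ⊥) {π : R} (hπ : π ∈ P) (hπ2 : π ∉ P ^ 2) {x : R} (hx : x ∈ P) :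
    ∃ a : R, x - a * π ∈ P ^ 2 := by
  have hprime : Prime P := (Ideal.prime_iff_isPrime hP0).mpr hP.isPrime
  set J : Ideal R := Ideal.span {π} ⊔ P ^ 2 with hJ
  have hJP : J ≤ P := sup_le ((Ideal.span_singleton_le_iff_mem P).mpr hπ) (Ideal.pow_le_self two_ne_zero)
  have hdvd : J ∣ P ^ 2 := Ideal.dvd_iff_le.mpr le_sup_right
  obtain ⟨i, hi, hassoc⟩ := (dvd_prime_pow hprime 2).mp hdvd
  have hJeq : J = P ^ i := associated_iff_eq.mp hassoc
  have hJ' : J = P := by
    interval_cases i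
    · exfalso
      rw [pow_zero, Ideal.one_eq_top] at hJeq
      exact hP.ne_top (top_le_iff.mp (hJeq ▸ hJP))
    · rw [hJeq, pow_one]
    · exfalso
      apply hπ2
      rw [← hJeq]
      exact Ideal.mem_sup_left (Ideal.subset_span rfl)
  have hxJ : x ∈ J := hJ' ▸ hx
  obtain ⟨y, hy, z, hz, rfl⟩ := Submodule.mem_sup.mp hxJ
  obtain ⟨a, rfl⟩ := Ideal.mem_span_singleton'.mp hy
  refine ⟨a, ?_⟩
  rw [add_sub_cancel_left]
  exact hz

end Uniformizer

section Char

variable {R : Type*} [CommRing R] {G : Type*} [Group G] [MulSemiringAction G R]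

/-- `u` represents the value of the tame character of `σ` (w.r.t. the uniformizer `π`):
`σ π ≡ u π` modulo `P ^ 2`. -/
def IsTameVal (P : Ideal R) (π : R) (σ : G) (u : R) : Prop := σ • π - u * π ∈ P ^ 2

theorem smul_mem_of_inertia {P : Ideal R} {σ : G} (hσ : ∀ x : R, σ • x - x ∈ P) {x : R}
    (hx : x ∈ P) : σ • x ∈ P := by
  have h2 : σ • x = (σ • x - x) + x := by ring
  rw [h2]
  exact P.add_mem (hσ x) hx

theorem smul_mem_sq_of_inertia {P : Ideal R} {σ : G} (hσ : ∀ x : R, σ • x - x ∈ P) {x : R}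
    (hx : x ∈ P ^ 2) : σ • x ∈ P ^ 2 := by
  rw [pow_two] at hx ⊢
  refine Submodule.mul_induction_on hx ?_ ?_
  · intro a ha b hb
    rw [smul_mul']
    exact Ideal.mul_mem_mul (smul_mem_of_inertia hσ ha) (smul_mem_of_inertia hσ hb)
  · intro y z hy hz
    rw [smul_add]
    exact (P * P).add_mem hy hz

theorem isTameVal_one (P : Ideal R) (π : R) : IsTameVal P π (1 : G) 1 := by
  unfold IsTameVal
  rw [one_smul, one_mul, sub_self]
  exact Submodule.zero_mem _

theorem IsTameVal.unique {P : Ideal R} (hP : P.IsMaximal) {π : R} (hπ : π ∈ P)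
    (hπ2 : π ∉ P ^ 2) {σ : G} {u v : R} (hu : IsTameVal P π σ u) (hv : IsTameVal P π σ v) :
    u - v ∈ P := by
  apply mem_of_mul_mem_sq hP hπ hπ2
  have e : (u - v) * π = (σ • π - v * π) - (σ • π - u * π) := by ring
  rw [e]
  exact (P ^ 2).sub_mem hv hu

theorem exists_isTameVal [IsDedekindDomain R] {P : Ideal R} (hP : P.IsMaximal) (hP0 : P ≠ ⊥)
    {π : R} (hπ : π ∈ P) (hπ2 : π ∉ P ^ 2) {σ : G} (hσ : ∀ x : R, σ • x - x ∈ P) :
    ∃ u : R, IsTameVal P π σ u :=
  exists_sub_mul_mem_sq hP hP0 hπ hπ2 (smul_mem_of_inertia hσ hπ)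

/-- The tame character does not depend on the uniformizer: `σ x ≡ u x` mod `P ^ 2` for all
`x ∈ P`. -/
theorem IsTameVal.smul_sub_mul_mem [IsDedekindDomain R] {P : Ideal R} (hP : P.IsMaximal)
    (hP0 : P ≠ ⊥) {π : R} (hπ : π ∈ P) (hπ2 : π ∉ P ^ 2) {σ : G}
    (hσ : ∀ x : R, σ • x - x ∈ P) {u : R} (hu : IsTameVal P π σ u) {x : R} (hx : x ∈ P) :
    σ • x - u * x ∈ P ^ 2 := by
  obtain ⟨a, ha⟩ := exists_sub_mul_mem_sq hP hP0 hπ hπ2 hx
  set b := x - a * π with hb
  have hx' : x = a * π + b := by rw [hb]; ring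
  have e : σ • x - u * x = (σ • a - a) * (σ • π) + a * (σ • π - u * π) + (σ • b - u * b) := by
    rw [hx', smul_add, smul_mul']; ring
  rw [e]
  refine (P ^ 2).add_mem ((P ^ 2).add_mem ?_ ?_) ?_
  · rw [pow_two]
    exact Ideal.mul_mem_mul (hσ a) (smul_mem_of_inertia hσ hπ)
  · exact (P ^ 2).mul_mem_left a hu
  · exact (P ^ 2).sub_mem (smul_mem_sq_of_inertia hσ ha) ((P ^ 2).mul_mem_left u ha)

theorem IsTameVal.mul [IsDedekindDomain R] {P : Ideal R} (hP : P.IsMaximal)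
    (hP0 : P ≠ ⊥) {π : R} (hπ : π ∈ P) (hπ2 : π ∉ P ^ 2) {σ τ : G}
    (hσ : ∀ x : R, σ • x - x ∈ P) (hτ : ∀ x : R, τ • x - x ∈ P) {u v : R}
    (hu : IsTameVal P π σ u) (hv : IsTameVal P π τ v) : IsTameVal P π (σ * τ) (u * v) := by
  unfold IsTameVal
  have h1 := hu.smul_sub_mul_mem hP hP0 hπ hπ2 hσ (smul_mem_of_inertia hτ hπ)
  have e : (σ * τ) • π - u * v * π = (σ • (τ • π) - u * (τ • π)) + u * (τ • π - v * π) := by
    rw [mul_smul]; ring
  rw [e]
  exact (P ^ 2).add_mem h1 ((P ^ 2).mul_mem_left u hv)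

/-- Trivial tame character implies trivial action on `P ⧸ P ^ 2`. -/
theorem IsTameVal.shifts_of_sub_one_mem [IsDedekindDomain R] {P : Ideal R} (hP : P.IsMaximal)
    (hP0 : P ≠ ⊥) {π : R} (hπ : π ∈ P) (hπ2 : π ∉ P ^ 2) {σ : G}
    (hσ : ∀ x : R, σ • x - x ∈ P) {u : R} (hu : IsTameVal P π σ u) (hu1 : u - 1 ∈ P) :
    ShiftsBy P σ 1 := by
  refine Fermat.Agent.TameInertia.shiftsBy_one P σ hσ fun x hx => ?_
  have h1 := hu.smul_sub_mul_mem hP hP0 hπ hπ2 hσ hx
  have e : σ • x - x = (σ • x - u * x) + (u - 1) * x := by ring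
  rw [e]
  refine (P ^ 2).add_mem h1 ?_
  rw [pow_two]
  exact Ideal.mul_mem_mul hu1 hx

/-- **Frobenius relation for the tame character**: `θ(φ σ φ⁻¹) = θ(σ) ^ q`. -/
theorem IsTameVal.conj_frob [IsDedekindDomain R] {P : Ideal R} (hP : P.IsMaximal)
    (hP0 : P ≠ ⊥) {π : R} (hπ : π ∈ P) (hπ2 : π ∉ P ^ 2) {σ : G}
    (hσ : ∀ x : R, σ • x - x ∈ P) {u : R} (hu : IsTameVal P π σ u)
    (q : ℕ) (hq : q ≠ 0) (φ : G) (hφ : ∀ x : R, φ • x - x ^ q ∈ P)
    (hφP : ∀ x : R, φ • x ∈ P → x ∈ P) :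
    IsTameVal P π (φ * σ * φ⁻¹) (u ^ q) := by
  have hφmem : ∀ x ∈ P, φ • x ∈ P := by
    intro x hx
    have h2 : φ • x = (φ • x - x ^ q) + x ^ q := by ring
    rw [h2]
    exact P.add_mem (hφ x) (P.pow_mem_of_mem hx q (Nat.pos_of_ne_zero hq))
  have hφsq : ∀ x ∈ P ^ 2, φ • x ∈ P ^ 2 := by
    intro x hx
    rw [pow_two] at hx ⊢
    refine Submodule.mul_induction_on hx ?_ ?_
    · intro a ha b hb
      rw [smul_mul']
      exact Ideal.mul_mem_mul (hφmem a ha) (hφmem b hb)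
    · intro y z hy hz
      rw [smul_add]
      exact (P * P).add_mem hy hz
  have hπ' : φ⁻¹ • π ∈ P := hφP _ (by rw [smul_inv_smul]; exact hπ)
  have h1 := hu.smul_sub_mul_mem hP hP0 hπ hπ2 hσ hπ'
  have h2 := hφsq _ h1
  rw [smul_sub, smul_mul', smul_inv_smul] at h2
  unfold IsTameVal
  have e : (φ * σ * φ⁻¹) • π - u ^ q * π =
      (φ • σ • φ⁻¹ • π - φ • u * π) + (φ • u - u ^ q) * π := by
    rw [mul_smul, mul_smul]; ring
  rw [e]
  refine (P ^ 2).add_mem h2 ?_
  rw [pow_two]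
  exact Ideal.mul_mem_mul (hφ u) hπ

end Char


section Main

variable {R : Type*} [CommRing R] [IsDedekindDomain R] {G : Type*} [Group G] [Finite G]
  [MulSemiringAction G R] [FaithfulSMul G R]

/-- Two tame elements with the same tame character are equal. -/
theorem eq_of_isTameVal {P : Ideal R} (hP : P.IsMaximal) (hP0 : P ≠ ⊥)
    {π : R} (hπ : π ∈ P) (hπ2 : π ∉ P ^ 2) (q : ℕ) (hqP : (q : R) ∈ P) {σ τ : G}
    (hσ : ∀ x : R, σ • x - x ∈ P) (hτ : ∀ x : R, τ • x - x ∈ P)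
    (hcop : (orderOf (σ⁻¹ * τ)).Coprime q) {u v : R}
    (hu : IsTameVal P π σ u) (hv : IsTameVal P π τ v) (huv : u - v ∈ P) : σ = τ := by
  have hσ' : ∀ x : R, σ⁻¹ • x - x ∈ P := by
    intro x
    have h1 := hσ (σ⁻¹ • x)
    rw [smul_inv_smul] at h1
    have := P.neg_mem h1
    rwa [neg_sub] at this
  obtain ⟨w, hw⟩ := exists_isTameVal (G := G) hP hP0 hπ hπ2 hσ'
  have h1 : IsTameVal P π (σ⁻¹ * σ) (w * u) := hw.mul hP hP0 hπ hπ2 hσ' hσ hu
  rw [inv_mul_cancel] at h1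
  have hwu : w * u - 1 ∈ P := h1.unique hP hπ hπ2 (isTameVal_one P π)
  have hρ : ∀ x : R, (σ⁻¹ * τ) • x - x ∈ P := by
    intro x
    have e : (σ⁻¹ * τ) • x - x = (σ⁻¹ • (τ • x) - τ • x) + (τ • x - x) := by
      rw [mul_smul]; ring
    rw [e]
    exact P.add_mem (hσ' _) (hτ x)
  have h2 : IsTameVal P π (σ⁻¹ * τ) (w * v) := hw.mul hP hP0 hπ hπ2 hσ' hτ hv
  have hwv : w * v - 1 ∈ P := by
    have e : w * v - 1 = (w * u - 1) - w * (u - v) := by ring
    rw [e]
    exact P.sub_mem hwu (P.mul_mem_left w huv)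
  have hshift := h2.shifts_of_sub_one_mem hP hP0 hπ hπ2 hρ hwv
  have htriv : ∀ x : R, (σ⁻¹ * τ) • x = x :=
    smul_eq_of_shiftsBy_one hP.ne_top hshift q hqP hcop (orderOf_pos _)
  have h3 : σ⁻¹ * τ = 1 := by
    apply FaithfulSMul.eq_of_smul_eq_smul (α := R)
    intro x
    rw [htriv x, one_smul]
  calc σ = σ * (σ⁻¹ * τ) := by rw [h3, mul_one]
    _ = τ := by group

/-- **Tame inertia, finite level**: a subgroup of the inertia group all of whose elements have
order prime to the residue characteristic is cyclic, and Frobenius acts on it by `σ ↦ σ ^ q`. -/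
theorem tame_finite (P : Ideal R) (hP : P.IsMaximal) (hP0 : P ≠ ⊥) (q : ℕ) (hq : q.Prime)
    (hqP : (q : R) ∈ P) (Ibar : Subgroup G) (hI : ∀ σ ∈ Ibar, ∀ x : R, σ • x - x ∈ P)
    (hcop : ∀ σ ∈ Ibar, (orderOf σ).Coprime q) :
    IsCyclic Ibar ∧ ∀ φ : G, (∀ x : R, φ • x - x ^ q ∈ P) → (∀ x : R, φ • x ∈ P → x ∈ P) →
      ∀ σ ∈ Ibar, φ * σ * φ⁻¹ ∈ Ibar → φ * σ * φ⁻¹ = σ ^ q := by
  obtain ⟨π, hπ, hπ2⟩ := SetLike.exists_of_lt (Ideal.pow_lt_self P hP0 hP.ne_top 2 le_rfl)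
  have hPprime : P.IsPrime := hP.isPrime
  have hex : ∀ σ : Ibar, ∃ u : R, IsTameVal P π (σ : G) u :=
    fun σ => exists_isTameVal hP hP0 hπ hπ2 (hI σ σ.2)
  refine ⟨?_, ?_⟩
  · let θ : Ibar →* R ⧸ P :=
      { toFun := fun σ => Ideal.Quotient.mk P (hex σ).choose
        map_one' := by
          rw [← map_one (Ideal.Quotient.mk P), Ideal.Quotient.eq]
          exact (hex 1).choose_spec.unique hP hπ hπ2 (isTameVal_one P π)
        map_mul' := by
          intro σ τ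
          rw [← map_mul, Ideal.Quotient.eq]
          exact (hex (σ * τ)).choose_spec.unique hP hπ hπ2
            ((hex σ).choose_spec.mul hP hP0 hπ hπ2 (hI σ σ.2) (hI τ τ.2) (hex τ).choose_spec) }
    refine isCyclic_of_injective_ringHom θ ?_
    intro σ τ hστ
    have h1 : (hex σ).choose - (hex τ).choose ∈ P := Ideal.Quotient.eq.mp hστ
    apply Subtype.ext
    exact eq_of_isTameVal hP hP0 hπ hπ2 q hqP (hI σ σ.2) (hI τ τ.2)
      (hcop _ (Ibar.mul_mem (Ibar.inv_mem σ.2) τ.2)) (hex σ).choose_spec (hex τ).choose_spec h1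
  · intro φ hφ hφP σ hσ hconj
    obtain ⟨u, hu⟩ := hex ⟨σ, hσ⟩
    have h1 : IsTameVal P π (φ * σ * φ⁻¹) (u ^ q) :=
      hu.conj_frob hP hP0 hπ hπ2 (hI σ hσ) q hq.ne_zero φ hφ hφP
    have h2 : ∀ n : ℕ, IsTameVal P π (σ ^ n) (u ^ n) := by
      intro n
      induction n with
      | zero => simpa using isTameVal_one (G := G) P π
      | succ n ih =>
        rw [pow_succ, pow_succ]
        exact ih.mul hP hP0 hπ hπ2 (hI _ (Ibar.pow_mem hσ n)) (hI σ hσ) hu
    exact eq_of_isTameVal hP hP0 hπ hπ2 q hqP (hI _ hconj) (hI _ (Ibar.pow_mem hσ q))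
      (hcop _ (Ibar.mul_mem (Ibar.inv_mem hconj) (Ibar.pow_mem hσ q))) h1 (h2 q)
      (by rw [sub_self]; exact Submodule.zero_mem _)

end Main

end Fermat.Agent.TameInertia
end MergeWrap_Lib_TameInertia_Finite

section MergeWrap_Lib_TameInertia_Main -- from Lib/TameInertia/Main.lean

set_option autoImplicit false

namespace Fermat.Agent.TameInertia

open NumberField Fermat.Agent.FrobExists Fermat.Agent.KFin
open scoped Pointwise

attribute [local instance] isAlgebraic_Qb isAlgClosure_Qb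

/-- Homomorphisms with the same kernel give the same orders. -/
theorem orderOf_eq_of_ker_eq {G H₁ H₂ : Type*} [Group G] [Group H₁] [Group H₂]
    (f : G →* H₁) (g : G →* H₂) (h : f.ker = g.ker) (x : G) :
    orderOf (f x) = orderOf (g x) := by
  rw [orderOf_eq_orderOf_iff]
  intro n
  rw [← map_pow, ← map_pow, ← MonoidHom.mem_ker, ← MonoidHom.mem_ker, h]

/-- Homomorphisms with the same kernel identify the same elements. -/
theorem apply_eq_of_ker_eq {G H₁ H₂ : Type*} [Group G] [Group H₁] [Group H₂]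
    (f : G →* H₁) (g : G →* H₂) (h : f.ker = g.ker) {x y : G} (hxy : f x = f y) :
    g x = g y := by
  have h1 : x⁻¹ * y ∈ f.ker := by
    rw [MonoidHom.mem_ker, map_mul, map_inv, hxy, inv_mul_cancel]
  rw [h, MonoidHom.mem_ker, map_mul, map_inv, inv_mul_eq_one] at h1
  exact h1

/-- The Galois group of a number field acts faithfully on its ring of integers. -/
theorem faithfulSMul_ringOfIntegers (L : Type*) [Field L] [NumberField L] :
    FaithfulSMul (L ≃ₐ[ℚ] L) (𝓞 L) := by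
  constructor
  intro σ τ h
  ext y
  obtain ⟨⟨x, n⟩, hn⟩ := IsLocalization.surj (nonZeroDivisors (𝓞 L)) y
  have hn0 : ((n : 𝓞 L) : L) ≠ 0 := by
    intro h0
    exact nonZeroDivisors.ne_zero n.2 (RingOfIntegers.coe_injective (h0.trans (map_zero _).symm))
  have hx := congrArg (fun z : 𝓞 L => (z : L)) (h x)
  have hnn := congrArg (fun z : 𝓞 L => (z : L)) (h (n : 𝓞 L))
  simp only at hn
  have h1 : σ (y * ((n : 𝓞 L) : L)) = τ (y * ((n : 𝓞 L) : L)) := by
    rw [hn]; exact hx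
  rw [map_mul, map_mul] at h1
  have h2 : σ ((n : 𝓞 L) : L) = τ ((n : 𝓞 L) : L) := hnn
  rw [h2] at h1
  have h3 : τ ((n : 𝓞 L) : L) ≠ 0 := by
    rw [Ne, map_eq_zero_iff τ τ.injective]; exact hn0
  exact mul_right_cancel₀ h3 h1


/-- A Frobenius element acts as `x ↦ x ^ q` modulo the maximal ideal. -/
theorem frob_sub_pow_mem_nonunits {K L : Type*} [Field K] [Field L] [Algebra K L]
    (A : ValuationSubring L) (φ : L ≃ₐ[K] L) (q : ℕ) (hφ : A.IsFrobeniusAt φ q) {a : L}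
    (ha : a ∈ A) : φ a - a ^ q ∈ A.nonunits := by
  have h1 := hφ.smul_residue_eq (IsLocalRing.residue A ⟨a, ha⟩)
  have h2 : IsLocalRing.residue A
      ((⟨φ, hφ.mem_decompositionSubgroup⟩ : A.decompositionSubgroup K) • (⟨a, ha⟩ : A) -
        ⟨a, ha⟩ ^ q) = 0 := by
    rw [map_sub, map_pow, sub_eq_zero]
    exact h1
  have h3 := (IsLocalRing.residue_eq_zero_iff _).mp h2
  exact (A.coe_mem_nonunits_iff).mpr h3

/-- **Tame inertia**: let `χ` be a homomorphism from `Gal(ℚ̄/ℚ)` to a group, with open kernel,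
and `A` a place of `ℚ̄` above `q` such that the image under `χ` of every element of the inertia
group at `A` has order prime to `q`.  Then the image of inertia is cyclic, and a Frobenius
element `φ` at `A` acts on it by `τ ↦ τ ^ q`. -/
theorem tame_inertia {H : Type*} [Group H] (χ : GQ →* H) (hopen : IsOpen (χ.ker : Set GQ))
    (q : ℕ) (hq : q.Prime) (A : ValuationSubring Qb) (hA : A.LiesOverPrime q)
    (hcop : ∀ σ ∈ A.inertiaSubgroupIn ℚ, (orderOf (χ σ)).Coprime q) :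
    (∃ τ₀ ∈ A.inertiaSubgroupIn ℚ, ∀ σ ∈ A.inertiaSubgroupIn ℚ, ∃ k : ℕ, χ σ = χ τ₀ ^ k) ∧
    ∀ φ : GQ, A.IsFrobeniusAt φ q → ∀ τ ∈ A.inertiaSubgroupIn ℚ,
      χ (φ * τ * φ⁻¹) = χ τ ^ q := by
  have hGal : IsGalois ℚ Qb := isGalois_Qb
  let N : ClosedSubgroup GQ :=
    { toSubgroup := χ.ker
      isClosed' := Subgroup.isClosed_of_isOpen _ hopen }
  let L : IntermediateField ℚ Qb := IntermediateField.fixedField χ.ker
  have hfix : L.fixingSubgroup = χ.ker := InfiniteGalois.fixingSubgroup_fixedField N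
  have hfin : FiniteDimensional ℚ L := by
    rw [← InfiniteGalois.isOpen_iff_finite, hfix]
    exact hopen
  have hgal : IsGalois ℚ L := by
    have hnormal : L.fixingSubgroup.Normal := by
      rw [hfix]
      infer_instance
    exact (InfiniteGalois.normal_iff_isGalois L).mp hnormal
  have hnf : NumberField L := { to_charZero := inferInstance, to_finiteDimensional := hfin }
  let r : GQ →* (L ≃ₐ[ℚ] L) := AlgEquiv.restrictNormalHom L
  have hker : r.ker = χ.ker := by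
    rw [← hfix]
    exact IntermediateField.restrictNormalHom_ker L
  have hfaith : FaithfulSMul (L ≃ₐ[ℚ] L) (𝓞 L) := faithfulSMul_ringOfIntegers L
  -- the prime of `𝓞 L` below `A`
  let ι : 𝓞 L →+* A :=
    { toFun := fun x => ⟨((x : L) : Qb), mem_valuationSubring_of_isIntegral A
        (x.isIntegral_coe.map (IsScalarTower.toAlgHom ℤ L Qb))⟩
      map_one' := rfl
      map_mul' := fun _ _ => rfl
      map_zero' := rfl
      map_add' := fun _ _ => rfl }
  let P : Ideal (𝓞 L) := Ideal.comap ι (IsLocalRing.maximalIdeal A)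
  have hPprime : P.IsPrime := Ideal.comap_isPrime _ _
  have hmemP : ∀ y : 𝓞 L, y ∈ P ↔ (((y : L) : Qb)) ∈ A.nonunits := by
    intro y
    rw [Ideal.mem_comap, ← ValuationSubring.coe_mem_nonunits_iff]
    rfl
  have hmemA : ∀ y : 𝓞 L, (((y : L) : Qb)) ∈ A := fun y => (ι y).2
  have hqP : ((q : ℕ) : 𝓞 L) ∈ P := by
    rw [hmemP]
    have : (((q : 𝓞 L) : L) : Qb) = (q : Qb) := by simp
    rw [this]
    exact hA
  have hP0 : P ≠ ⊥ := by
    intro h
    rw [h, Ideal.mem_bot] at hqP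
    exact hq.ne_zero (by exact_mod_cast hqP)
  have hPmax : P.IsMaximal := hPprime.isMaximal hP0
  -- the action of `r σ` on integers, in `ℚ̄`
  have hcoe : ∀ (σ : GQ) (x : 𝓞 L), ((((r σ) • x : 𝓞 L) : L) : Qb) = σ ((x : L) : Qb) := by
    intro σ x
    exact AlgEquiv.restrictNormal_commutes σ L (x : L)
  let Ibar : Subgroup (L ≃ₐ[ℚ] L) := (A.inertiaSubgroupIn ℚ).map r
  have hI : ∀ s ∈ Ibar, ∀ x : 𝓞 L, s • x - x ∈ P := by
    rintro _ ⟨σ, hσ, rfl⟩ x
    rw [hmemP]
    have h1 := ((kf_mem_inertiaSubgroupIn_iff A σ).mp hσ).2 _ (hmemA x)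
    rw [← hcoe σ x] at h1
    exact h1
  have hcopbar : ∀ s ∈ Ibar, (orderOf s).Coprime q := by
    rintro _ ⟨σ, hσ, rfl⟩
    rw [orderOf_eq_of_ker_eq r χ hker σ]
    exact hcop σ hσ
  obtain ⟨hcyc, hfrob⟩ := tame_finite P hPmax hP0 q hq hqP Ibar hI hcopbar
  refine ⟨?_, ?_⟩
  · obtain ⟨⟨g, hg⟩, hgen⟩ := hcyc.exists_generator
    obtain ⟨τ₀, hτ₀, rfl⟩ := hg
    refine ⟨τ₀, hτ₀, fun σ hσ => ?_⟩
    have h1 := hgen ⟨r σ, σ, hσ, rfl⟩
    rw [← mem_powers_iff_mem_zpowers] at h1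
    obtain ⟨k, hk⟩ := h1
    refine ⟨k, ?_⟩
    have h2 : r (τ₀ ^ k) = r σ := by
      rw [map_pow]
      exact congrArg Subtype.val hk
    rw [← map_pow]
    exact (apply_eq_of_ker_eq r χ hker h2).symm
  · intro φ hφ τ hτ
    have hφD : φ • A = A := hφ.mem_decompositionSubgroup
    have hφinv : φ⁻¹ • A = A := by
      conv_lhs => rw [← hφD]
      rw [inv_smul_smul]
    have h1 : ∀ x : 𝓞 L, (r φ) • x - x ^ q ∈ P := by
      intro x
      rw [hmemP]
      have := frob_sub_pow_mem_nonunits A φ q hφ (hmemA x)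
      rw [← hcoe φ x] at this
      exact this
    have h2 : ∀ x : 𝓞 L, (r φ) • x ∈ P → x ∈ P := by
      intro x hx
      rw [hmemP] at hx ⊢
      rw [hcoe φ x] at hx
      have := kf_smul_mem_nonunits A φ⁻¹ hx
      rw [hφinv] at this
      have e : φ⁻¹ (φ ((x : L) : Qb)) = ((x : L) : Qb) := by
        show φ.symm (φ _) = _
        simp
      rwa [e] at this
    have hconj : φ * τ * φ⁻¹ ∈ A.inertiaSubgroupIn ℚ := by
      have := kf_conj_mem_inertiaSubgroupIn A φ τ hτ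
      rwa [hφD] at this
    have h3 := hfrob (r φ) h1 h2 (r τ) ⟨τ, hτ, rfl⟩ (by
      refine ⟨φ * τ * φ⁻¹, hconj, ?_⟩
      rw [map_mul, map_mul, map_inv])
    have h4 : r (φ * τ * φ⁻¹) = r (τ ^ q) := by
      rw [map_mul, map_mul, map_inv, map_pow]
      exact h3
    rw [← map_pow]
    exact apply_eq_of_ker_eq r χ hker h4

end Fermat.Agent.TameInertia
end MergeWrap_Lib_TameInertia_Main
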