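import Fermat.Agent.MU.Lib.TameInertia.Main

section MergeWrap_Lib_TameInertia_Hom -- from Lib/TameInertia/Hom.lean

set_option autoImplicit false

namespace Fermat.Agent.TameInertia

section Hom

set_option linter.unusedSectionVars false

variable {R : Type*} [CommRing R] [IsDedekindDomain R] {G : Type*} [Group G] [Finite G]
  [MulSemiringAction G R] [FaithfulSMul G R]

theorem inertia_one (P : Ideal R) : ∀ x : R, (1 : G) • x - x ∈ P := by
  intro x
  rw [one_smul, sub_self]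
  exact Submodule.zero_mem _

theorem inertia_mul {P : Ideal R} {σ τ : G} (hσ : ∀ x : R, σ • x - x ∈ P)
    (hτ : ∀ x : R, τ • x - x ∈ P) : ∀ x : R, (σ * τ) • x - x ∈ P := by
  intro x
  have e : (σ * τ) • x - x = (σ • (τ • x) - τ • x) + (τ • x - x) := by
    rw [mul_smul]; ring
  rw [e]
  exact P.add_mem (hσ _) (hτ x)

theorem inertia_inv {P : Ideal R} {σ : G} (hσ : ∀ x : R, σ • x - x ∈ P) :
    ∀ x : R, σ⁻¹ • x - x ∈ P := by
  intro x
  have h1 := hσ (σ⁻¹ • x)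
  rw [smul_inv_smul] at h1
  have := P.neg_mem h1
  rwa [neg_sub] at this

theorem inertia_pow {P : Ideal R} {σ : G} (hσ : ∀ x : R, σ • x - x ∈ P) (n : ℕ) :
    ∀ x : R, (σ ^ n) • x - x ∈ P := by
  induction n with
  | zero => rw [pow_zero]; exact inertia_one P
  | succ n ih => rw [pow_succ]; exact inertia_mul ih hσ

theorem IsTameVal.pow {P : Ideal R} (hP : P.IsMaximal) (hP0 : P ≠ ⊥) {π : R} (hπ : π ∈ P)
    (hπ2 : π ∉ P ^ 2) {σ : G} (hσ : ∀ x : R, σ • x - x ∈ P) {u : R} (hu : IsTameVal P π σ u)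
    (n : ℕ) : IsTameVal P π (σ ^ n) (u ^ n) := by
  induction n with
  | zero => simpa using isTameVal_one (G := G) P π
  | succ n ih =>
    rw [pow_succ, pow_succ]
    exact ih.mul hP hP0 hπ hπ2 (inertia_pow hσ n) hσ hu

theorem IsTameVal.inv {P : Ideal R} (hP : P.IsMaximal) (hP0 : P ≠ ⊥) {π : R} (hπ : π ∈ P)
    (hπ2 : π ∉ P ^ 2) {σ : G} (hσ : ∀ x : R, σ • x - x ∈ P) {u w : R} (hu : IsTameVal P π σ u)
    (hw : IsTameVal P π σ⁻¹ w) : w * u - 1 ∈ P := by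
  have h1 : IsTameVal P π (σ⁻¹ * σ) (w * u) := hw.mul hP hP0 hπ hπ2 (inertia_inv hσ) hσ hu
  rw [inv_mul_cancel] at h1
  exact h1.unique hP hπ hπ2 (isTameVal_one P π)

/-- **The wild part is a `q`-group**: an inertia element with trivial tame character has
`q`-power order. -/
theorem exists_pow_prime_pow_eq_one {P : Ideal R} (hP : P.IsMaximal) (hP0 : P ≠ ⊥)
    {π : R} (hπ : π ∈ P) (hπ2 : π ∉ P ^ 2) (q : ℕ) (hq : q.Prime) (hqP : (q : R) ∈ P)
    {w : G} (hw : ∀ x : R, w • x - x ∈ P) {u : R} (hu : IsTameVal P π w u) (hu1 : u - 1 ∈ P) :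
    ∃ a : ℕ, w ^ q ^ a = 1 := by
  have hm0 : orderOf w ≠ 0 := (orderOf_pos w).ne'
  refine ⟨(orderOf w).factorization q, ?_⟩
  set a := (orderOf w).factorization q with ha
  have hdvd : q ^ a ∣ orderOf w := Nat.ordProj_dvd (orderOf w) q
  have hqa : q ^ a ≠ 0 := pow_ne_zero _ hq.ne_zero
  have hord : orderOf (w ^ q ^ a) = orderOf w / q ^ a := by
    rw [orderOf_pow' w hqa, Nat.gcd_eq_right hdvd]
  have hcop : (orderOf (w ^ q ^ a)).Coprime q := by
    rw [hord]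
    exact (Nat.coprime_ordCompl hq hm0).symm
  have hu' : IsTameVal P π (w ^ q ^ a) (u ^ q ^ a) := hu.pow hP hP0 hπ hπ2 hw _
  have hu1' : (1 : R) - u ^ q ^ a ∈ P := by
    have h1 : u ^ q ^ a - 1 ∈ P := by
      have := sub_dvd_pow_sub_pow u 1 (q ^ a)
      rw [one_pow] at this
      exact Ideal.mem_of_dvd P this hu1
    have := P.neg_mem h1
    rwa [neg_sub] at this
  have h := eq_of_isTameVal hP hP0 hπ hπ2 q hqP (inertia_one (G := G) P)
    (inertia_pow hw (q ^ a)) (by rwa [inv_one, one_mul]) (isTameVal_one P π) hu' hu1'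
  exact h.symm

/-- A finite group is cyclic modulo the kernel of a character with values in a domain. -/
theorem exists_generator_mod_ker {I : Type*} [Group I] [Finite I] {F : Type*} [CommRing F]
    [IsDomain F] (θ : I →* F) : ∃ s₀ : I, ∀ s : I, ∃ n : ℕ, θ ((s₀ ^ n)⁻¹ * s) = 1 := by
  let θ' : I →* Fˣ := θ.toHomUnits
  have hθ' : ∀ s, ((θ' s : Fˣ) : F) = θ s := fun s => rfl
  let f : I ⧸ θ'.ker →* F := (Units.coeHom F).comp (QuotientGroup.kerLift θ')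
  have hf : Function.Injective f := by
    intro a b hab
    apply QuotientGroup.kerLift_injective θ'
    exact Units.ext hab
  have hcyc : IsCyclic (I ⧸ θ'.ker) := isCyclic_of_injective_ringHom f hf
  obtain ⟨g, hgen⟩ := hcyc.exists_generator
  obtain ⟨s₀, rfl⟩ := QuotientGroup.mk_surjective g
  refine ⟨s₀, fun s => ?_⟩
  have h1 := hgen (QuotientGroup.mk s)
  rw [← mem_powers_iff_mem_zpowers] at h1
  obtain ⟨n, hn⟩ := h1
  refine ⟨n, ?_⟩
  have h2 : (s₀ ^ n)⁻¹ * s ∈ θ'.ker := by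
    rw [← QuotientGroup.eq]
    exact hn
  rw [MonoidHom.mem_ker] at h2
  rw [← hθ', h2]
  rfl

/-- **Tame inertia for homomorphisms, finite level.** -/
theorem tame_finite_hom {Γ H : Type*} [Group Γ] [Group H] (r : Γ →* G) (χ : Γ →* H)
    (hker : r.ker ≤ χ.ker) (P : Ideal R) (hP : P.IsMaximal) (hP0 : P ≠ ⊥) (q : ℕ)
    (hq : q.Prime) (hqP : (q : R) ∈ P) (J : Subgroup Γ)
    (hJ : ∀ γ ∈ J, ∀ x : R, r γ • x - x ∈ P)
    (hcop : ∀ γ ∈ J, (orderOf (χ γ)).Coprime q) :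
    (∃ τ₀ ∈ J, ∀ γ ∈ J, ∃ n : ℕ, χ γ = χ τ₀ ^ n) ∧
    ∀ φ : Γ, (∀ x : R, r φ • x - x ^ q ∈ P) → (∀ x : R, r φ • x ∈ P → x ∈ P) →
      ∀ γ ∈ J, φ * γ * φ⁻¹ ∈ J → χ (φ * γ * φ⁻¹) = χ γ ^ q := by
  obtain ⟨π, hπ, hπ2⟩ := SetLike.exists_of_lt (Ideal.pow_lt_self P hP0 hP.ne_top 2 le_rfl)
  have hPprime : P.IsPrime := hP.isPrime
  -- Step 0: `χ` kills the wild part
  have hwild : ∀ γ ∈ J, ∀ u : R, IsTameVal P π (r γ) u → u - 1 ∈ P → χ γ = 1 := by
    intro γ hγ u hu hu1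
    obtain ⟨a, ha⟩ := exists_pow_prime_pow_eq_one hP hP0 hπ hπ2 q hq hqP (hJ γ hγ) hu hu1
    have h1 : γ ^ q ^ a ∈ χ.ker := hker (by rw [MonoidHom.mem_ker, map_pow, ha])
    rw [MonoidHom.mem_ker, map_pow] at h1
    have h2 : orderOf (χ γ) ∣ q ^ a := orderOf_dvd_of_pow_eq_one h1
    have h3 : orderOf (χ γ) = 1 :=
      (Nat.Coprime.pow_right a (hcop γ hγ)).eq_one_of_dvd h2
    exact orderOf_eq_one_iff.mp h3
  have hex : ∀ γ ∈ J, ∃ u : R, IsTameVal P π (r γ) u :=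
    fun γ hγ => exists_isTameVal hP hP0 hπ hπ2 (hJ γ hγ)
  refine ⟨?_, ?_⟩
  · -- the tame character on the image of `J`
    let Ibar : Subgroup G := J.map r
    have hI : ∀ s ∈ Ibar, ∀ x : R, s • x - x ∈ P := by
      rintro _ ⟨γ, hγ, rfl⟩
      exact hJ γ hγ
    have hexI : ∀ s : Ibar, ∃ u : R, IsTameVal P π (s : G) u :=
      fun s => exists_isTameVal hP hP0 hπ hπ2 (hI s s.2)
    let θ : Ibar →* R ⧸ P :=
      { toFun := fun s => Ideal.Quotient.mk P (hexI s).choose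
        map_one' := by
          rw [← map_one (Ideal.Quotient.mk P), Ideal.Quotient.eq]
          exact (hexI 1).choose_spec.unique hP hπ hπ2 (isTameVal_one P π)
        map_mul' := by
          intro σ τ
          rw [← map_mul, Ideal.Quotient.eq]
          exact (hexI (σ * τ)).choose_spec.unique hP hπ hπ2
            ((hexI σ).choose_spec.mul hP hP0 hπ hπ2 (hI σ σ.2) (hI τ τ.2) (hexI τ).choose_spec) }
    obtain ⟨⟨s₀, hs₀⟩, hgen⟩ := exists_generator_mod_ker θ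
    obtain ⟨τ₀, hτ₀, hτ₀s⟩ := hs₀
    refine ⟨τ₀, hτ₀, fun γ hγ => ?_⟩
    obtain ⟨n, h2⟩ := hgen ⟨r γ, γ, hγ, rfl⟩
    refine ⟨n, ?_⟩
    set δ : Γ := (τ₀ ^ n)⁻¹ * γ with hδ
    have hδJ : δ ∈ J := J.mul_mem (J.inv_mem (J.pow_mem hτ₀ n)) hγ
    have hδr : (((⟨s₀, τ₀, hτ₀, hτ₀s⟩ : Ibar) ^ n)⁻¹ * ⟨r γ, γ, hγ, rfl⟩ : Ibar) =
        ⟨r δ, δ, hδJ, rfl⟩ := by
      apply Subtype.ext
      simp only [hδ, map_mul, map_inv, map_pow, Subgroup.coe_mul, Subgroup.coe_inv,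
        Subgroup.coe_pow, hτ₀s]
    rw [hδr] at h2
    have h3 : (hexI ⟨r δ, δ, hδJ, rfl⟩).choose - 1 ∈ P := by
      rw [← Ideal.Quotient.eq, map_one]
      exact h2
    have h4 := hwild δ hδJ _ (hexI ⟨r δ, δ, hδJ, rfl⟩).choose_spec h3
    rw [hδ, map_mul, map_inv, map_pow, inv_mul_eq_one] at h4
    exact h4.symm
  · intro φ hφ hφP γ hγ hconj
    obtain ⟨u, hu⟩ := hex γ hγ
    have h1 : IsTameVal P π (r φ * r γ * (r φ)⁻¹) (u ^ q) :=
      hu.conj_frob hP hP0 hπ hπ2 (hJ γ hγ) q hq.ne_zero (r φ) hφ hφP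
    have h2 : IsTameVal P π (r γ ^ q) (u ^ q) := hu.pow hP hP0 hπ hπ2 (hJ γ hγ) q
    have hγq : ∀ x : R, (r γ ^ q) • x - x ∈ P := inertia_pow (hJ γ hγ) q
    obtain ⟨w, hw⟩ := exists_isTameVal (G := G) hP hP0 hπ hπ2 (inertia_inv hγq)
    have hw1 : w * u ^ q - 1 ∈ P := h2.inv hP hP0 hπ hπ2 hγq hw
    set δ : Γ := (γ ^ q)⁻¹ * (φ * γ * φ⁻¹) with hδ
    have hδJ : δ ∈ J := J.mul_mem (J.inv_mem (J.pow_mem hγ q)) hconj
    have hconj' : ∀ x : R, (r φ * r γ * (r φ)⁻¹) • x - x ∈ P := by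
      have := hJ _ hconj
      rwa [map_mul, map_mul, map_inv] at this
    have h3 : IsTameVal P π (r δ) (w * u ^ q) := by
      have := hw.mul hP hP0 hπ hπ2 (inertia_inv hγq) hconj' h1
      rwa [hδ, map_mul, map_inv, map_pow, map_mul, map_mul, map_inv]
    have h4 := hwild δ hδJ _ h3 hw1
    rw [hδ, map_mul, map_inv, inv_mul_eq_one, map_pow] at h4
    exact h4.symm

end Hom

end Fermat.Agent.TameInertia
end MergeWrap_Lib_TameInertia_Hom

section MergeWrap_Lib_TameInertia_Local -- from Lib/TameInertia/Local.lean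

set_option autoImplicit false

namespace Fermat.Agent.TameInertia

open NumberField Fermat.Agent.FrobExists Fermat.Agent.KFin
open scoped Pointwise

attribute [local instance] isAlgebraic_Qb isAlgClosure_Qb

/-- **Tame inertia for homomorphisms over `Gal(ℚ̄/ℚ)`.** -/
theorem tame_inertia_hom {Γ H : Type*} [Group Γ] [Group H] (r : Γ →* GQ) (χ : Γ →* H)
    (L : IntermediateField ℚ Qb) (hfd : FiniteDimensional ℚ L) (hnor : L.fixingSubgroup.Normal)
    (hker : ∀ γ : Γ, r γ ∈ L.fixingSubgroup → χ γ = 1)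
    (q : ℕ) (hq : q.Prime) (A : ValuationSubring Qb) (hA : A.LiesOverPrime q)
    (hcop : ∀ γ : Γ, r γ ∈ A.inertiaSubgroupIn ℚ → (orderOf (χ γ)).Coprime q) :
    (∃ τ₀ : Γ, r τ₀ ∈ A.inertiaSubgroupIn ℚ ∧
      ∀ γ : Γ, r γ ∈ A.inertiaSubgroupIn ℚ → ∃ n : ℕ, χ γ = χ τ₀ ^ n) ∧
    ∀ φ : Γ, A.IsFrobeniusAt (r φ) q → ∀ τ : Γ, r τ ∈ A.inertiaSubgroupIn ℚ →
      χ (φ * τ * φ⁻¹) = χ τ ^ q := by
  have hGal : IsGalois ℚ Qb := isGalois_Qb
  have hgal : IsGalois ℚ L := (InfiniteGalois.normal_iff_isGalois L).mp hnor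
  have hnormal : Normal ℚ L := inferInstance
  let rL : GQ →* (L ≃ₐ[ℚ] L) := AlgEquiv.restrictNormalHom L
  let r' : Γ →* (L ≃ₐ[ℚ] L) := rL.comp r
  have hkerL : rL.ker = L.fixingSubgroup :=
    @IntermediateField.restrictNormalHom_ker ℚ Qb _ _ _ L hnormal
  have hker' : r'.ker ≤ χ.ker := by
    intro γ hγ
    rw [MonoidHom.mem_ker] at hγ ⊢
    apply hker
    rw [← hkerL, MonoidHom.mem_ker]
    exact hγ
  have hnf : NumberField L := { to_charZero := inferInstance, to_finiteDimensional := hfd }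
  have hfaith : FaithfulSMul (L ≃ₐ[ℚ] L) (𝓞 L) := faithfulSMul_ringOfIntegers L
  -- the prime of `𝓞 L` below `A`
  let ι : 𝓞 L →+* A :=
    { toFun := fun x => ⟨((x : L) : Qb), mem_valuationSubring_of_isIntegral A
        (x.isIntegral_coe.map (IsScalarTower.toAlgHom ℤ L Qb))⟩
      map_one' := rfl
      map_mul' := fun _ _ => rfl
      map_zero' := rfl
      map_add' := fun _ _ => rfl }
  let P : Ideal (𝓞 L) := Ideal.comap ι (IsLocalRing.maximalIdeal A)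
  have hPprime : P.IsPrime := Ideal.comap_isPrime _ _
  have hmemP : ∀ y : 𝓞 L, y ∈ P ↔ (((y : L) : Qb)) ∈ A.nonunits := by
    intro y
    rw [Ideal.mem_comap, ← ValuationSubring.coe_mem_nonunits_iff]
    rfl
  have hmemA : ∀ y : 𝓞 L, (((y : L) : Qb)) ∈ A := fun y => (ι y).2
  have hqP : ((q : ℕ) : 𝓞 L) ∈ P := by
    rw [hmemP]
    have : (((q : 𝓞 L) : L) : Qb) = (q : Qb) := by simp
    rw [this]
    exact hA
  have hP0 : P ≠ ⊥ := by
    intro h
    rw [h, Ideal.mem_bot] at hqP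
    exact hq.ne_zero (by exact_mod_cast hqP)
  have hPmax : P.IsMaximal := hPprime.isMaximal hP0
  -- the action of `rL σ` on integers, in `ℚ̄`
  have hcoe : ∀ (σ : GQ) (x : 𝓞 L), ((((rL σ) • x : 𝓞 L) : L) : Qb) = σ ((x : L) : Qb) := by
    intro σ x
    exact AlgEquiv.restrictNormal_commutes σ L (x : L)
  let J : Subgroup Γ := (A.inertiaSubgroupIn ℚ).comap r
  have hJ : ∀ γ ∈ J, ∀ x : 𝓞 L, r' γ • x - x ∈ P := by
    intro γ hγ x
    rw [hmemP]
    have h1 := ((kf_mem_inertiaSubgroupIn_iff A (r γ)).mp hγ).2 _ (hmemA x)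
    rw [← hcoe (r γ) x] at h1
    exact h1
  have hcopJ : ∀ γ ∈ J, (orderOf (χ γ)).Coprime q := fun γ hγ => hcop γ hγ
  obtain ⟨hcyc, hfrob⟩ := tame_finite_hom r' χ hker' P hPmax hP0 q hq hqP J hJ hcopJ
  refine ⟨?_, ?_⟩
  · obtain ⟨τ₀, hτ₀, h⟩ := hcyc
    exact ⟨τ₀, hτ₀, fun γ hγ => h γ hγ⟩
  · intro φ hφ τ hτ
    have hφD : r φ • A = A := hφ.mem_decompositionSubgroup
    have hφinv : (r φ)⁻¹ • A = A := by
      conv_lhs => rw [← hφD]
      rw [inv_smul_smul]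
    have h1 : ∀ x : 𝓞 L, (r' φ) • x - x ^ q ∈ P := by
      intro x
      rw [hmemP]
      have := frob_sub_pow_mem_nonunits A (r φ) q hφ (hmemA x)
      rw [← hcoe (r φ) x] at this
      exact this
    have h2 : ∀ x : 𝓞 L, (r' φ) • x ∈ P → x ∈ P := by
      intro x hx
      rw [hmemP] at hx ⊢
      have hx' : r φ ((x : L) : Qb) ∈ A.nonunits := by
        rw [← hcoe (r φ) x]
        exact hx
      have := kf_smul_mem_nonunits A (r φ)⁻¹ hx'
      rw [hφinv] at this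
      have e : (r φ)⁻¹ (r φ ((x : L) : Qb)) = ((x : L) : Qb) := by
        show (r φ).symm (r φ _) = _
        simp
      rwa [e] at this
    have hconj : φ * τ * φ⁻¹ ∈ J := by
      show r (φ * τ * φ⁻¹) ∈ A.inertiaSubgroupIn ℚ
      have := kf_conj_mem_inertiaSubgroupIn A (r φ) (r τ) hτ
      rw [hφD] at this
      rwa [map_mul, map_mul, map_inv]
    exact hfrob φ h1 h2 τ hτ hconj

end Fermat.Agent.TameInertia
end MergeWrap_Lib_TameInertia_Local
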